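/-
S45, project CARAYOL-K, block GEN (helper88): the ABSTRACT INDUCTION STEP for the explicit generator
of the vertical prime of a component `F^a V^a` (report #1696).

No modular equation is used.  Input = the level `q` facts
* `frob`  : `∀ h ∃ h', β₀ h' ≡ (α₀ h)^q` on the Gauss valuation `V∞` of level `N₀ q`;
* `dense` : the residue field of `V∞` is that of `α₀ F₀`;
and a chain of embeddings `ι j : F₁ → F` (`f(z) ↦ f(q^j z)`, composed with `w_q` on the `V`-steps)
which all pull the valuation `W` back to `V∞`.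

* `Pal.res`   : `δ_{2a} h ≡ δ_0 h` on `W`;
* `Pal.step`  : `z = g_{2a}/g_0 - 1`, `s = g_{2a-1}/g_1 - 1` satisfy `W(z)^q = W(s)`, `z^q/s ≡ 1`;
* `gen_step`  : at a point `R` lying on one component only, `s^e/q` unit of `R` ⟹ `z^(q e)/q` unit;
* `princ_of_gen` : `z^e/q` unit of `R`, `z` uniformiser ⟹ `Princ`.
-/
import Mathlib
import Fermat.Agent.S18.Defs
import Fermat.Agent.S36.BP.Defs
import Fermat.Agent.S36.BP.Rad
import Fermat.Agent.S36.BP.Build.LocalCrit

set_option autoImplicit false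

noncomputable section

namespace Fermat.Agent.S45.Gen

open Fermat.Agent.S18 Fermat.Agent.S36.BP Fermat.Agent.S36.BP.Build

/-! ### Valuation-theoretic core -/

section Val

variable {F : Type*} [Field F] {W : ValuationSubring F} {q : ℕ}

/-- `(a + b) ^ q = a ^ q + b ^ q + q * a * b * r` with `r ∈ W`. -/
theorem exists_add_pow_eq (hq : q.Prime) {a b : F} (ha : W.valuation a ≤ 1)
    (hb : W.valuation b ≤ 1) :
    ∃ r : F, W.valuation r ≤ 1 ∧ (a + b) ^ q = a ^ q + b ^ q + (q : F) * a * b * r := by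
  obtain ⟨r, hr⟩ := exists_add_pow_prime_eq hq
    (⟨a, (W.valuation_le_one_iff a).1 ha⟩ : W) ⟨b, (W.valuation_le_one_iff b).1 hb⟩
  have h1 := congrArg (Subtype.val) hr
  refine ⟨(r : F), (W.valuation_le_one_iff _).2 r.2, ?_⟩
  simpa using h1

/-- Frobenius is injective on the residue field. -/
theorem cg_of_pow (hq : q.Prime) (hqW : W.valuation (q : F) < 1) {a b : F}
    (ha : W.valuation a ≤ 1) (hb : W.valuation b ≤ 1) (h : Cg W (a ^ q) (b ^ q)) : Cg W a b := by
  have hab : W.valuation (a - b) ≤ 1 :=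
    le_trans (W.valuation.map_sub _ _) (max_le ha hb)
  obtain ⟨r, hr, e⟩ := exists_add_pow_eq hq hab hb
  rw [sub_add_cancel] at e
  have h1 : W.valuation ((a - b) ^ q) < 1 := by
    have e2 : (a - b) ^ q = (a ^ q - b ^ q) - (q : F) * ((a - b) * b * r) := by
      rw [e]; ring
    rw [e2]
    refine lt_of_le_of_lt (W.valuation.map_sub _ _) (max_lt h ?_)
    rw [map_mul]
    refine mul_lt_one_of_lt_of_le hqW ?_
    rw [map_mul, map_mul]
    exact mul_le_one' (mul_le_one' hab hb) hr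
  rw [map_pow] at h1
  exact (pow_lt_one_iff_of_nonneg zero_le hq.ne_zero).1 h1

theorem cg_of_pow_pow (hq : q.Prime) (hqW : W.valuation (q : F) < 1) (n : ℕ) {a b : F}
    (ha : W.valuation a ≤ 1) (hb : W.valuation b ≤ 1) (h : Cg W (a ^ q ^ n) (b ^ q ^ n)) :
    Cg W a b := by
  induction n with
  | zero => simpa using h
  | succ n ih =>
    apply ih
    rw [pow_succ, pow_mul, pow_mul] at h
    exact cg_of_pow hq hqW (by rw [map_pow]; exact pow_le_one' ha _)
      (by rw [map_pow]; exact pow_le_one' hb _) h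

/-- **The additive step.**  `g₁ = g₀^q + q Δ₀`, `g_{k-1} = g_k^q + q Δ₁`, `Δ₁ ≡ Δ₀`, `g_k ≡ g₀`, and
`g_{k-1} - g₁` divides `q`.  Then `(g_k - g₀)^q = (g_{k-1} - g₁) (1 + 𝔪)`. -/
theorem step_add (hq : q.Prime) (hq0 : (q : F) ≠ 0) {g0 g1 gk1 gk Δ0 Δ1 : F}
    (hg0 : W.valuation g0 ≤ 1) (hD : W.valuation (gk - g0) < 1)
    (h0 : g1 - g0 ^ q = (q : F) * Δ0) (h1 : gk1 - gk ^ q = (q : F) * Δ1)
    (hΔ : W.valuation (Δ1 - Δ0) < 1) (hS : W.valuation (q : F) ≤ W.valuation (gk1 - g1)) :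
    W.valuation (gk - g0) ^ q = W.valuation (gk1 - g1) ∧
      W.valuation ((gk - g0) ^ q / (gk1 - g1) - 1) < 1 := by
  obtain ⟨r, hr, e⟩ := exists_add_pow_eq hq hg0 hD.le
  rw [add_sub_cancel] at e
  set D := gk - g0 with hDdef
  set S := gk1 - g1 with hSdef
  set μ := g0 * D * r + (Δ1 - Δ0) with hμdef
  have hμ : W.valuation μ < 1 := by
    refine lt_of_le_of_lt (W.valuation.map_add _ _) (max_lt ?_ hΔ)
    rw [map_mul, map_mul]
    calc W.valuation g0 * W.valuation D * W.valuation r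
        ≤ 1 * W.valuation D * 1 := by gcongr
      _ < 1 := by simpa using hD
  have hSe : D ^ q = S - (q : F) * μ := by
    have : S = (gk1 - gk ^ q) - (g1 - g0 ^ q) + (gk ^ q - g0 ^ q) := by rw [hSdef]; ring
    rw [this, h1, h0, e, hμdef]; ring
  have hvq : 0 < W.valuation (q : F) := zero_lt_iff.2 ((Valuation.ne_zero_iff _).2 hq0)
  have hlt : W.valuation ((q : F) * μ) < W.valuation S := by
    rw [map_mul]
    refine lt_of_lt_of_le ?_ hS
    calc W.valuation (q : F) * W.valuation μ < W.valuation (q : F) * 1 := by gcongr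
      _ = W.valuation (q : F) := mul_one _
  have hS0 : S ≠ 0 := by
    intro h
    rw [h, map_zero] at hS
    exact absurd hvq (not_lt.2 hS)
  refine ⟨?_, ?_⟩
  · rw [← map_pow, hSe]
    exact Valuation.map_sub_eq_of_lt_left _ hlt
  · have : D ^ q / S - 1 = - ((q : F) * μ) / S := by
      rw [hSe]; field_simp; ring
    rw [this, map_div₀, Valuation.map_neg]
    exact (div_lt_one₀ (zero_lt_iff.2 ((Valuation.ne_zero_iff _).2 hS0))).2 hlt

/-- **The multiplicative step.** -/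
theorem step_mul (hq : q.Prime) (hq0 : (q : F) ≠ 0) (hqW : W.valuation (q : F) < 1)
    {g0 g1 gk1 gk Δ0 Δ1 : F}
    (hg0 : W.valuation g0 = 1) (hD : W.valuation (gk - g0) < 1) (hΔ0 : W.valuation Δ0 ≤ 1)
    (h0 : g1 - g0 ^ q = (q : F) * Δ0) (h1 : gk1 - gk ^ q = (q : F) * Δ1)
    (hΔ : W.valuation (Δ1 - Δ0) < 1) (hS : W.valuation (q : F) ≤ W.valuation (gk1 - g1)) :
    W.valuation (gk / g0 - 1) ^ q = W.valuation (gk1 / g1 - 1) ∧
      W.valuation ((gk / g0 - 1) ^ q / (gk1 / g1 - 1) - 1) < 1 := by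
  obtain ⟨hv, hc⟩ := step_add hq hq0 hg0.le hD h0 h1 hΔ hS
  have hg00 : g0 ≠ 0 := ne_zero_of_val_eq_one hg0
  have hcg1 : Cg W g1 (g0 ^ q) := by
    rw [cg_def, h0, map_mul]
    exact mul_lt_one_of_lt_of_le hqW hΔ0
  have hg0q : W.valuation (g0 ^ q) = 1 := val_pow_eq_one hg0 q
  have hg1 : W.valuation g1 = 1 := hcg1.val_eq_one hg0q
  have hg10 : g1 ≠ 0 := ne_zero_of_val_eq_one hg1
  have e1 : gk / g0 - 1 = (gk - g0) / g0 := by field_simp
  have e2 : gk1 / g1 - 1 = (gk1 - g1) / g1 := by field_simp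
  have hvq : 0 < W.valuation (q : F) := zero_lt_iff.2 ((Valuation.ne_zero_iff _).2 hq0)
  have hS0 : gk1 - g1 ≠ 0 := by
    intro h
    rw [h, map_zero] at hS
    exact absurd hvq (not_lt.2 hS)
  refine ⟨?_, ?_⟩
  · rw [e1, e2, map_div₀, map_div₀, hg0, hg1, div_one, div_one, hv]
  · have e3 : ((gk - g0) / g0) ^ q / ((gk1 - g1) / g1) =
        ((gk - g0) ^ q / (gk1 - g1)) * (g1 / g0 ^ q) := by
      rw [div_pow]
      field_simp
    rw [e1, e2, e3]
    have c1 : Cg W ((gk - g0) ^ q / (gk1 - g1)) 1 := hc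
    have c2 : Cg W (g1 / g0 ^ q) 1 := by
      have := hcg1.div (Cg.refl W (g0 ^ q)) hg0q.le hg0q
      rwa [div_self (pow_ne_zero q hg00)] at this
    have := c1.mul c2 (by rw [map_one]) (by rw [map_div₀, hg1, hg0q, div_one])
    rwa [one_mul] at this

end Val

/-! ### The chain of embeddings -/

section Chain

variable {F₀ F₁ F : Type*} [Field F₀] [Field F₁] [Field F]

theorem val_le_one_of_comap {W : ValuationSubring F} {V : ValuationSubring F₁} {ι : F₁ →+* F}
    (h : W.comap ι = V) (y : F₁) : W.valuation (ι y) ≤ 1 ↔ V.valuation y ≤ 1 := by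
  rw [W.valuation_le_one_iff, V.valuation_le_one_iff, ← h]
  exact Iff.rfl

theorem val_lt_one_of_comap {W : ValuationSubring F} {V : ValuationSubring F₁} {ι : F₁ →+* F}
    (h : W.comap ι = V) (y : F₁) : W.valuation (ι y) < 1 ↔ V.valuation y < 1 := by
  by_cases hy : y = 0
  · subst hy; simp
  have hy' : ι y ≠ 0 := (map_ne_zero ι).2 hy
  rw [valuation_lt_one_iff_inv_not_mem hy', valuation_lt_one_iff_inv_not_mem hy, ← h, ← map_inv₀]
  exact Iff.rfl

theorem val_eq_one_of_comap {W : ValuationSubring F} {V : ValuationSubring F₁} {ι : F₁ →+* F}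
    (h : W.comap ι = V) (y : F₁) : W.valuation (ι y) = 1 ↔ V.valuation y = 1 := by
  have h1 := val_le_one_of_comap h y
  have h2 := val_lt_one_of_comap h y
  constructor
  · intro e
    exact le_antisymm (h1.1 e.le) (not_lt.1 fun hlt => absurd e (h2.2 hlt).ne)
  · intro e
    exact le_antisymm (h1.2 e.le) (not_lt.1 fun hlt => absurd e (h2.1 hlt).ne)

/-- The two facts of level `q`. -/
structure LevelQ (q : ℕ) (al0 be0 : F₀ →+* F₁) (Voo : ValuationSubring F₁) : Prop where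
  /-- the Frobenius relation -/
  frob : ∀ h : F₀, Voo.valuation (al0 h) ≤ 1 →
    ∃ h' : F₀, Voo.valuation (al0 h') ≤ 1 ∧ Voo.valuation (be0 h' - al0 h ^ q) < 1
  /-- residue degree one over `α₀` -/
  dense : ∀ y : F₁, Voo.valuation y ≤ 1 → ∃ h : F₀, Voo.valuation (al0 h - y) < 1

/-- `W` is a valuation of type `F^a V^a`: `d j = δ_j : f(z) ↦ f(q^j z)`, `ι j : F₁ → F` is
`f(z) ↦ f(q^j z)` for `j < a` and its composite with `w_q` for `a ≤ j < 2 a`. -/
structure Pal (al0 be0 : F₀ →+* F₁) (Voo : ValuationSubring F₁) (W : ValuationSubring F) (a : ℕ)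
    (d : ℕ → F₀ →+* F) (ι : ℕ → F₁ →+* F) : Prop where
  comap : ∀ j < 2 * a, W.comap (ι j) = Voo
  stepF : ∀ j < a, ∀ h, ι j (al0 h) = d j h ∧ ι j (be0 h) = d (j + 1) h
  stepV : ∀ j, a ≤ j → j < 2 * a → ∀ h, ι j (al0 h) = d (j + 1) h ∧ ι j (be0 h) = d j h

variable {q : ℕ} {al0 be0 : F₀ →+* F₁} {Voo : ValuationSubring F₁} {W : ValuationSubring F}
  {a : ℕ} {d : ℕ → F₀ →+* F} {ι : ℕ → F₁ →+* F}

theorem Pal.aux (P : Pal al0 be0 Voo W a d ι) (L : LevelQ q al0 be0 Voo) (h : F₀)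
    (hh : Voo.valuation (al0 h) ≤ 1) (i : ℕ) (hi : i ≤ a) :
    ∃ h' : F₀, Voo.valuation (al0 h') ≤ 1 ∧ Cg W (d i h') (d 0 h ^ q ^ i) ∧
      Cg W (d (2 * a - i) h') (d (2 * a) h ^ q ^ i) := by
  induction i with
  | zero => exact ⟨h, hh, by simpa using Cg.refl W _, by simpa using Cg.refl W _⟩
  | succ i ih =>
    obtain ⟨h₁, hh₁, c1, c2⟩ := ih (by omega)
    obtain ⟨h₂, hh₂, c⟩ := L.frob h₁ hh₁
    have ha0 : 0 < a := by omega
    -- integrality of `d 0 h` and `d (2a) h`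
    have i0 : W.valuation (d 0 h) ≤ 1 := by
      rw [← (P.stepF 0 ha0 h).1]
      exact (val_le_one_of_comap (P.comap 0 (by omega)) _).2 hh
    have i1 : W.valuation (d (2 * a) h) ≤ 1 := by
      have := (P.stepV (2 * a - 1) (by omega) (by omega) h).1
      rw [show 2 * a - 1 + 1 = 2 * a by omega] at this
      rw [← this]
      exact (val_le_one_of_comap (P.comap (2 * a - 1) (by omega)) _).2 hh
    refine ⟨h₂, hh₂, ?_, ?_⟩
    · have hF := P.stepF i (by omega)
      have c' : W.valuation (ι i (be0 h₂ - al0 h₁ ^ q)) < 1 :=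
        (val_lt_one_of_comap (P.comap i (by omega)) _).2 c
      rw [map_sub, map_pow, (hF h₂).2, (hF h₁).1] at c'
      have c'' : Cg W (d (i + 1) h₂) (d i h₁ ^ q) := c'
      refine c''.trans ?_
      rw [pow_succ, pow_mul]
      exact c1.pow (by rw [map_pow]; exact pow_le_one' i0 _) q
    · have hj1 : a ≤ 2 * a - (i + 1) := by omega
      have hj2 : 2 * a - (i + 1) < 2 * a := by omega
      have hV := P.stepV (2 * a - (i + 1)) hj1 hj2
      have c' : W.valuation (ι (2 * a - (i + 1)) (be0 h₂ - al0 h₁ ^ q)) < 1 :=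
        (val_lt_one_of_comap (P.comap _ hj2) _).2 c
      rw [map_sub, map_pow, (hV h₂).2, (hV h₁).1,
        show 2 * a - (i + 1) + 1 = 2 * a - i by omega] at c'
      have c'' : Cg W (d (2 * a - (i + 1)) h₂) (d (2 * a - i) h₁ ^ q) := c'
      refine c''.trans ?_
      rw [pow_succ, pow_mul]
      exact c2.pow (by rw [map_pow]; exact pow_le_one' i1 _) q

/-- **(RES)** the two extreme embeddings of level `N₀` induce the same map on residue fields. -/
theorem Pal.res (P : Pal al0 be0 Voo W a d ι) (L : LevelQ q al0 be0 Voo) (hq : q.Prime)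
    (hqW : W.valuation (q : F) < 1) (h : F₀) (hh : Voo.valuation (al0 h) ≤ 1) :
    W.valuation (d (2 * a) h - d 0 h) < 1 := by
  rcases Nat.eq_zero_or_pos a with rfl | ha0
  · simp
  obtain ⟨h', -, c1, c2⟩ := P.aux L h hh a le_rfl
  rw [show 2 * a - a = a by omega] at c2
  have i0 : W.valuation (d 0 h) ≤ 1 := by
    rw [← (P.stepF 0 ha0 h).1]
    exact (val_le_one_of_comap (P.comap 0 (by omega)) _).2 hh
  have i1 : W.valuation (d (2 * a) h) ≤ 1 := by
    have := (P.stepV (2 * a - 1) (by omega) (by omega) h).1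
    rw [show 2 * a - 1 + 1 = 2 * a by omega] at this
    rw [← this]
    exact (val_le_one_of_comap (P.comap (2 * a - 1) (by omega)) _).2 hh
  exact cg_of_pow_pow hq hqW a i1 i0 (c2.symm.trans c1)

/-- **(STEP)** for any `g ∈ F₀`, unit of the Gauss valuation, with `g(T^q) ≡ g(T)^q mod q`:
`z = g_{2a}/g_0 - 1` and `s = g_{2a-1}/g_1 - 1` satisfy `W(z)^q = W(s)` and `z^q/s ≡ 1`, as soon as
`g_{2a-1} - g_1` divides `q` in `W`. -/
theorem Pal.step (P : Pal al0 be0 Voo W a d ι) (L : LevelQ q al0 be0 Voo) (hq : q.Prime)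
    (hq0 : (q : F) ≠ 0) (hqW : W.valuation (q : F) < 1) (ha : 1 ≤ a) (g : F₀)
    (hg : Voo.valuation (al0 g) = 1)
    (hfr : Voo.valuation ((be0 g - al0 g ^ q) / (q : F₁)) ≤ 1)
    (hS : W.valuation (q : F) ≤ W.valuation (d (2 * a - 1) g - d 1 g)) :
    W.valuation (d (2 * a) g / d 0 g - 1) ^ q = W.valuation (d (2 * a - 1) g / d 1 g - 1) ∧
      W.valuation ((d (2 * a) g / d 0 g - 1) ^ q / (d (2 * a - 1) g / d 1 g - 1) - 1) < 1 := by
  have hq1 : (q : F₁) ≠ 0 := by
    intro h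
    apply hq0
    have := congrArg (ι 0) h
    rwa [map_natCast, map_zero] at this
  set Δ : F₁ := (be0 g - al0 g ^ q) / (q : F₁) with hΔ
  have hΔe : be0 g - al0 g ^ q = (q : F₁) * Δ := by rw [hΔ]; field_simp
  have hF := P.stepF 0 (by omega)
  have hV := P.stepV (2 * a - 1) (by omega) (by omega)
  have e21 : 2 * a - 1 + 1 = 2 * a := by omega
  have c0 := P.comap 0 (by omega)
  have c1 := P.comap (2 * a - 1) (by omega)
  obtain ⟨h, hh⟩ := L.dense Δ hfr
  have hh1 : Voo.valuation (al0 h) ≤ 1 := Cg.val_le_one hh hfr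
  have r0 : Cg W (d 0 h) (ι 0 Δ) := by
    have := (val_lt_one_of_comap c0 _).2 hh
    rwa [map_sub, (hF h).1] at this
  have r1 : Cg W (d (2 * a) h) (ι (2 * a - 1) Δ) := by
    have := (val_lt_one_of_comap c1 _).2 hh
    rwa [map_sub, (hV h).1, e21] at this
  have r2 : Cg W (d (2 * a) h) (d 0 h) := P.res L hq hqW h hh1
  refine step_mul hq hq0 hqW (Δ0 := ι 0 Δ) (Δ1 := ι (2 * a - 1) Δ) ?_ ?_ ?_ ?_ ?_ ?_ hS
  · rw [← (hF g).1]
    exact (val_eq_one_of_comap c0 _).2 hg
  · exact P.res L hq hqW g hg.le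
  · exact (val_le_one_of_comap c0 _).2 hfr
  · have := congrArg (ι 0) hΔe
    rwa [map_sub, map_pow, map_mul, map_natCast, (hF g).1, (hF g).2] at this
  · have := congrArg (ι (2 * a - 1)) hΔe
    rwa [map_sub, map_pow, map_mul, map_natCast, (hV g).1, (hV g).2, e21] at this
  · exact (r1.symm.trans r2).trans r0

end Chain

/-! ### The points -/

section Pts

variable {K₀ F : Type*} [Field K₀] [Field F] [Algebra K₀ F] {A₀ : ValuationSubring K₀}
variable {κ : Type*} {V : κ → ValuationSubring F} {R : Subring F} {q : ℕ}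

/-- **The induction step of GEN'** at a point which lies on the component `V c₀` only. -/
theorem gen_step (hR : IsPt A₀ R) (hqep : LocQep q V R) (hq0 : (q : F) ≠ 0) (c₀ : κ)
    (hT : Through R (V c₀)) (hA : ∀ c, c ≠ c₀ → Away R (V c)) {z s : F} {e : ℕ} (he : 1 ≤ e)
    (hz : z ∈ R) (hs : s ∈ R) (hsu : RUnit R (s ^ e / (q : F)))
    (hc : (V c₀).valuation (z ^ q / s - 1) < 1) : RUnit R (z ^ (q * e) / (q : F)) := by
  have hs0 : s ≠ 0 := by
    intro h
    apply hsu.ne_zero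
    rw [h, zero_pow (by omega), zero_div]
  have hcg : Cg (V c₀) (z ^ q / s) 1 := hc
  have hmem : z ^ q / s ∈ R := by
    refine hqep _ ?_ fun c hcT => ?_
    · have : (q : F) * (z ^ q / s) = z ^ q * s ^ (e - 1) * (s ^ e / (q : F))⁻¹ := by
        have h3 : s ^ e = s ^ (e - 1) * s := by
          rw [← pow_succ]; congr 1; omega
        rw [h3]
        field_simp
      rw [this]
      exact R.mul_mem (R.mul_mem (R.pow_mem hz _) (R.pow_mem hs _)) hsu.inv_mem
    · by_cases hcc : c = c₀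
      · subst hcc
        exact mem_iff_val_le.2 (hcg.val_le_one (by rw [map_one]))
      · exact absurd (hA c hcc) (not_away_of_through hcT)
  have hru : RUnit R (z ^ q / s) :=
    hR.runit_of_cr (Cg.cr hT.le hcg hmem R.one_mem) (RUnit.one R)
  have : z ^ (q * e) / (q : F) = (z ^ q / s) ^ e * (s ^ e / (q : F)) := by
    rw [pow_mul, div_pow]
    field_simp
  rw [this]
  exact (hru.pow e).mul hsu

/-- **GEN' ⟹ Princ.** -/
theorem princ_of_gen (hqep : LocQep q V R) (hq0 : (q : F) ≠ 0) (c₀ : κ)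
    (hA : ∀ c, c ≠ c₀ → Away R (V c)) {z : F} {e : ℕ} (he : 1 ≤ e) (hz : z ∈ R)
    (hzu : RUnit R (z ^ e / (q : F))) (hlt : (V c₀).valuation z < 1)
    (hmax : ∀ y : F, (V c₀).valuation y < 1 → (V c₀).valuation y ≤ (V c₀).valuation z) :
    Princ R (V c₀) := by
  have hz0 : z ≠ 0 := by
    intro h
    apply hzu.ne_zero
    rw [h, zero_pow (by omega), zero_div]
  refine princ_of hqep c₀ hz hz0 (k := 1) ?_ hlt hmax fun c hc hTc =>
    absurd (hA c hc) (not_away_of_through hTc)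
  have : (q : F) ^ 1 / z = z ^ (e - 1) * (z ^ e / (q : F))⁻¹ := by
    have h3 : z ^ e = z ^ (e - 1) * z := by
      rw [← pow_succ]; congr 1; omega
    rw [h3]
    field_simp
  rw [this]
  exact R.mul_mem (R.pow_mem hz _) hzu.inv_mem

end Pts

end Fermat.Agent.S45.Gen

end
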