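/-
S45, project CARAYOL-K, block GEN (helper88): THE FROBENIUS RELATION OF LEVEL `q`
  `∀ h ∃ h', h'(q z) ≡ h(z)^q` on the component `F` of level `N₀ q`
(field `frob` of `Gen.LevelQ` and of `Pts.B1`), WITHOUT any Frobenius lift on the constants.
[`BAD/LevelQ` `kron` goes the other way: `f(q z) ≡ (γ f)(z)^q`.]

Proof: at level `q²` the component `FF` is radicial for `β` (`Half.res_b`, `Half.norm_mem`): for
`y = h(z)`, `y^q ≡ N_β y = β y'`; `y' ≡ α₀ r` on `F` (density), and `β₁ α₀ r = α₁ β₀ r`.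
* `frob_of_rad`   : the abstract statement;
* `frob_setup`, `levelQ_setup` : the instance for `S36.Mod.Setup`.
-/
import Fermat.Agent.S45.Gen.Step
import Fermat.Agent.S36.Mod.HalfInst.Main
import Fermat.Agent.S36.Mod.Val.Level1
import Fermat.Agent.S36.Mod.Rel

set_option autoImplicit false
set_option linter.unusedSectionVars false

noncomputable section

namespace Fermat.Agent.S45.Gen

open Fermat.Agent.S18 Fermat.Agent.S36.BP

section Abs

variable {F₀ F₁ F₂ : Type*} [Field F₀] [Field F₁] [Field F₂]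

/-- **The Frobenius relation of level `q` from the radiciality of `FF` for `β` at level `q²`.** -/
theorem frob_of_rad {q : ℕ} (hq : q ≠ 0) (al0 be0 : F₀ →+* F₁) (al1 be1 : F₁ →+* F₂)
    {Voo : ValuationSubring F₁} {V20 : ValuationSubring F₂} {N : F₂ →* F₂}
    (hmem : ∀ y, N y ∈ be1.fieldRange)
    (hres : ∀ y : F₂, V20.valuation y = 1 → V20.valuation (N y - y ^ q) < 1)
    (hal : V20.comap al1 = Voo) (hbe : V20.comap be1 = Voo)
    (hdense : ∀ y : F₁, Voo.valuation y ≤ 1 → ∃ r : F₀, Voo.valuation (al0 r - y) < 1)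
    (hsq : ∀ r, al1 (be0 r) = be1 (al0 r)) (h : F₀) (hh : Voo.valuation (al0 h) ≤ 1) :
    ∃ h' : F₀, Voo.valuation (al0 h') ≤ 1 ∧ Voo.valuation (be0 h' - al0 h ^ q) < 1 := by
  rcases lt_or_eq_of_le hh with hlt | heq
  · refine ⟨0, by simp, ?_⟩
    rw [map_zero, zero_sub, Valuation.map_neg, map_pow]
    exact pow_lt_one₀ zero_le hlt hq
  · have hy : V20.valuation (al1 (al0 h)) = 1 := (val_eq_one_of_comap hal _).2 heq
    obtain ⟨y', hy'⟩ := hmem (al1 (al0 h))
    have c1 : Cg V20 (be1 y') (al1 (al0 h) ^ q) := by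
      rw [hy']; exact hres _ hy
    have h1 : Voo.valuation y' ≤ 1 :=
      (val_le_one_of_comap hbe y').1 (c1.val_le_one (val_pow_eq_one hy q).le)
    obtain ⟨r, hr⟩ := hdense y' h1
    refine ⟨r, Cg.val_le_one hr h1, ?_⟩
    have c2 : Cg V20 (be1 (al0 r)) (be1 y') := by
      have := (val_lt_one_of_comap hbe _).2 hr
      rwa [map_sub] at this
    have c3 := c2.trans c1
    rw [← hsq, cg_def, ← map_pow, ← map_sub] at c3
    exact (val_lt_one_of_comap hal _).1 c3

end Abs

section Inst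

open ModularCurve Fermat.Agent.S24 Fermat.Agent.S36.Mod

variable {K K' : Type*} [Field K] [Field K'] [Algebra ℚ K] [Algebra ℚ K'] [Algebra K Kbar]
  [Algebra K' Kbar] (S : Setup K K')

theorem dense_setup (y : S.F1) (hy : S.V1oo.valuation y ≤ 1) :
    ∃ r : S.F0, S.V1oo.valuation (S.al0 r - y) < 1 :=
  S.dense1oo y ((S.V1oo.valuation_le_one_iff y).1 hy)

/-- **The Frobenius relation for `S36.Mod.Setup`.** -/
theorem frob_setup (h : S.F0) (hh : S.V1oo.valuation (S.al0 h) ≤ 1) :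
    ∃ h' : S.F0, S.V1oo.valuation (S.al0 h') ≤ 1 ∧
      S.V1oo.valuation (S.be0 h' - S.al0 h ^ S.q) < 1 :=
  frob_of_rad S.hq.ne_zero S.al0.toRingHom S.be0.toRingHom S.al1.toRingHom S.be1.toRingHom
    S.halfβ.norm_mem S.halfβ.res_b S.V20_comap_al1 S.V20_comap_be1 (dense_setup S) S.al1_be0 h hh

theorem levelQ_setup : LevelQ S.q S.al0.toRingHom S.be0.toRingHom S.V1oo :=
  ⟨frob_setup S, dense_setup S⟩

end Inst

end Fermat.Agent.S45.Gen

end
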