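/-
S45, project CARAYOL-K, block GEN (helper88): THE BASE LINK FOR `q = 2` (reports #1696, #1700 (G2)).

At level `4 N₀` the middle component has multiplicity `q - 1 = 1` and the S36 instance takes `z = 2`
as generator, which does not start the chain `z_{i+1}^q / z_i ≡ 1`.  Here:
`t₃ = 1/h₃ = η(τ)^12/η(3τ)^12 = T⁻¹ T3z`, `T3z = (∏ (1-T^n)/(1-T^{3n}))^12`.
* `Haupt' S Tz t`   : `HauptData` without the differential equation;
* `exists_e11_zf'`  : `zf S t = (ζ - 1) U`, `U ≡ θ t / t` (any `q`);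
* `zf_mem'`         : `zf S t` lies in every integrally closed ring containing `B` and `j`;
* `exists_haupt3`   : `t₃ ∈ F0` if `3 ∣ N0`, `q ≠ 3`; `t₃` and `3^18 / t₃` are integral over `ℤ[j]`;
* `zf_cong_two`     : for `q = 2`, `zf S t₃ / 2 ≡ 1` on `V11`  (`θ t₃ = - t₃` modulo `2`);
* `isUnif_zf_two`   : `zf S t₃` is a uniformiser of `V11`.
-/
import Fermat.Agent.BAD.Model.EtaInst.ZExp
import Fermat.Agent.BAD.Model.EtaInst.ZInt
import Fermat.Agent.BAD.Model.EtaInst.Val
import Fermat.Agent.BAD.Model.EtaInst.Haupt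
import Fermat.Agent.BAD.Model.EtaInst.Main
import Fermat.Agent.Lib.Hauptmodul.Bar
import Fermat.Agent.Lib.Hauptmodul.AnyRing

set_option autoImplicit false
set_option linter.unusedSectionVars false

noncomputable section

namespace Fermat.Agent.S45.Gen.Two

open ModularCurve Fermat.Agent.S24 Fermat.Agent.S18 Fermat.Agent.S18.Vert Fermat.Agent.S36.Mod
  Fermat.Agent.S36.BP Fermat.Agent.S18.Descent Fermat.Agent.BAD.Model.EtaInst
open Fermat.Agent.Lib.Hauptmodul (toL dilZ etaProdInv)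
open Fermat.Agent.Lib

/-! ### The formal series -/

/-- `(∏ (1 - T^n)/(1 - T^{3n}))^12` -/
def T3z : PowerSeries ℤ := (etaProd * dilZ 3 etaProdInv) ^ 12

theorem constantCoeff_T3z : PowerSeries.constantCoeff T3z = 1 := by
  rw [T3z, map_pow, map_mul, Hauptmodul.constantCoeff_dilZ, constantCoeff_etaProd,
    Hauptmodul.constantCoeff_etaProdInv, one_mul, one_pow]

theorem T3z_mul_u3Z : T3z * Hauptmodul.u3Z = 1 := by
  rw [T3z, Hauptmodul.u3Z, ← mul_pow]
  have : etaProd * dilZ 3 etaProdInv * (dilZ 3 etaProd * etaProdInv) =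
      (etaProd * etaProdInv) * (dilZ 3 etaProd * dilZ 3 etaProdInv) := by ring
  rw [this, Hauptmodul.etaProd_mul_inv, Hauptmodul.dilZ_etaProd_mul_inv, one_mul, one_pow]

/-- `X T3z' ≡ 0` modulo `2` (even modulo `12`). -/
theorem X_mul_derivative_T3z :
    ∃ P : PowerSeries ℤ, PowerSeries.X * PowerSeries.derivative ℤ T3z = 2 * P := by
  refine ⟨6 * (PowerSeries.X * ((etaProd * dilZ 3 etaProdInv) ^ 11 *
    PowerSeries.derivative ℤ (etaProd * dilZ 3 etaProdInv))), ?_⟩
  rw [T3z, Derivation.leibniz_pow]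
  simp only [smul_eq_mul, nsmul_eq_mul]
  push_cast
  ring

/-- `(T⁻¹ T3z) h₃ = 1`. -/
theorem single_mul_T3z_mul_h3 (R : Type*) [CommRing R] :
    (HahnSeries.single (-1 : ℤ) (1 : R) * toL R T3z) * toL R Hauptmodul.h3Z = 1 := by
  rw [Hauptmodul.h3Z, map_mul]
  calc HahnSeries.single (-1 : ℤ) (1 : R) * toL R T3z *
        (toL R PowerSeries.X * toL R Hauptmodul.u3Z)
      = (HahnSeries.single (-1 : ℤ) (1 : R) * toL R PowerSeries.X) *
        toL R (T3z * Hauptmodul.u3Z) := by rw [map_mul]; ring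
    _ = 1 := by rw [Hauptmodul.single_neg_one_mul_toL_X, T3z_mul_u3Z, map_one, one_mul]

/-! ### Integrality over `ℤ[j]` -/

section Int

variable {B : Type*} [Field B]

/-- `j x³ = (x + 27)(x + 243)³` ⟹ `x` is integral over `ℤ[j]`. -/
theorem intOver_of_rel {j x : B} (h : j * x ^ 3 = (x + 27) * (x + 243) ^ 3) : IntOver j x := by
  let j' : Algebra.adjoin ℤ {j} := ⟨j, Algebra.subset_adjoin rfl⟩
  let r : Polynomial (Algebra.adjoin ℤ {j}) := Polynomial.C (756 - j') * Polynomial.X ^ 3 +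
    Polynomial.C 196830 * Polynomial.X ^ 2 + Polynomial.C 19131876 * Polynomial.X +
    Polynomial.C 387420489
  have hr : r.degree < (4 : ℕ) := by
    have : r.degree ≤ 3 := by
      simp only [r]
      compute_degree
    exact lt_of_le_of_lt this (by norm_num)
  refine ⟨Polynomial.X ^ 4 + r, Polynomial.monic_X_pow_add hr, ?_⟩
  have hj : algebraMap (Algebra.adjoin ℤ {j}) B j' = j := rfl
  simp only [r, Polynomial.eval₂_add, Polynomial.eval₂_mul, Polynomial.eval₂_pow,
    Polynomial.eval₂_X, Polynomial.eval₂_C, Polynomial.eval₂_sub, Polynomial.eval₂_ofNat,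
    map_sub, map_ofNat]
  rw [hj]
  linear_combination -h

/-- `j x³ = (x + 27)(x + 243)³`, `x ≠ 0` ⟹ `3^18 / x` is integral over `ℤ[j]`. -/
theorem intOver_inv_of_rel {j x : B} (hx : x ≠ 0) (h : j * x ^ 3 = (x + 27) * (x + 243) ^ 3) :
    IntOver j (((387420489 : ℕ) : B) * x⁻¹) := by
  have hi : IntOver j x := intOver_of_rel h
  have hjj : IntOver j j :=
    isIntegral_algebraMap (x := (⟨j, Algebra.subset_adjoin rfl⟩ : Algebra.adjoin ℤ {j}))
  have hn : ∀ n : ℕ, IntOver j ((n : ℕ) : B) := fun n => isIntegral_natCast n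
  have e : ((387420489 : ℕ) : B) * x⁻¹ =
      -(x ^ 3 + (((756 : ℕ) : B) - j) * x ^ 2 + ((196830 : ℕ) : B) * x + ((19131876 : ℕ) : B)) := by
    field_simp
    push_cast
    linear_combination -h
  rw [e]
  exact IsIntegral.neg (IsIntegral.add (IsIntegral.add (IsIntegral.add (IsIntegral.pow hi 3)
    (IsIntegral.mul (IsIntegral.sub (hn _) hjj) (IsIntegral.pow hi 2)))
    (IsIntegral.mul (hn _) hi)) (hn _))

end Int

/-! ### Modular units of level `N0` -/

variable {K K' : Type*} [Field K] [Field K'] [Algebra ℚ K] [Algebra ℚ K'] [Algebra K Kbar]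
  [Algebra K' Kbar]

/-- `HauptData` without the differential equation: the modular unit `t = T⁻¹ Tz` of level `N0`;
`t` and `m / t` are integral over `ℤ[j]`, `m` prime to `q`. -/
structure Haupt' (S : Setup K K') (Tz : PowerSeries ℤ) (t : S.F0) : Prop where
  const : PowerSeries.constantCoeff Tz = 1
  coe : (t : LaurentSeries K) = HahnSeries.single (-1 : ℤ) 1 * toL K Tz
  int : IntOver (jj K S.N0) t
  int' : ∃ m : ℕ, m.Coprime S.q ∧ IntOver (jj K S.N0) ((m : S.F0) * t⁻¹)

variable {S : Setup K K'} {Gz Tz : PowerSeries ℤ} {t : S.F0}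

theorem haupt'_of_hauptData (H : HauptData S Gz Tz t) : Haupt' S Tz t :=
  ⟨H.const, H.coe, H.int, H.int'⟩

/-- `z = t(ζ X)/t(X) - 1 = (ζ - 1) U`, `U ≡ θ t / t` (as `ZExp.exists_e11_zf`, any `q`). -/
theorem exists_e11_zf' (H : Haupt' S Tz t) :
    ∃ U : LaurentSeries S.B',
      S.e11.toHom (zf S t) = inc S.B' (HahnSeries.C ⟨(S.ζ : K') - 1, S.Unif_zeta_sub_one_mem⟩ * U) ∧
      red S.B' U = toL S.kk (PowerSeries.X * PowerSeries.derivative ℤ Tz - Tz) *
        toL S.kk (invZ Tz) := by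
  obtain ⟨U0, hU0, hred⟩ := exists_twist_sub S.B' S.q S.hq S.q_nonunit' S.ζ S.hζ
    S.Unif_zeta_sub_one_mem Tz
  have ht : coeffMap S.ι (t : LaurentSeries K) = HahnSeries.single (-1 : ℤ) 1 * toL K' Tz := by
    rw [H.coe, map_mul, coeffMap_single, map_one, coeffMap_toL]
  have hinv := ZExp_single_mul K' H.const
  have hinv' : (HahnSeries.single (-1 : ℤ) (1 : K') * toL K' Tz)⁻¹ =
      HahnSeries.single (1 : ℤ) (1 : K') * toL K' (invZ Tz) := inv_eq_of_mul_eq_one_right hinv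
  have hinc : inc S.B' (HahnSeries.single (1 : ℤ) (1 : S.B') * toL S.B' (invZ Tz)) =
      HahnSeries.single (1 : ℤ) (1 : K') * toL K' (invZ Tz) := by
    rw [map_mul]
    congr 1
    · exact coeffMap_single _ _ _
    · exact coeffMap_toL _ _
  refine ⟨U0 * (HahnSeries.single (1 : ℤ) (1 : S.B') * toL S.B' (invZ Tz)), ?_, ?_⟩
  · rw [← mul_assoc, map_mul, hinc, ← hU0, zf, map_sub, map_mul, map_inv₀, map_one,
      e11_al1_al0, e11_be1_be0, ht, hinv', sub_mul, hinv]
  · have hr : red S.B' (HahnSeries.single (1 : ℤ) (1 : S.B') * toL S.B' (invZ Tz)) =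
        HahnSeries.single (1 : ℤ) (1 : S.kk) * toL S.kk (invZ Tz) := by
      rw [map_mul]
      congr 1
      · exact (coeffMap_single _ _ _).trans (by rw [map_one])
      · exact coeffMap_toL _ _
    rw [map_mul, hred, hr]
    have h1 : HahnSeries.single (-1 : ℤ) (1 : S.kk) * HahnSeries.single (1 : ℤ) (1 : S.kk) = 1 := by
      rw [HahnSeries.single_mul_single]
      simp
    calc HahnSeries.single (-1 : ℤ) (1 : S.kk) *
          toL S.kk (PowerSeries.X * PowerSeries.derivative ℤ Tz - Tz) *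
          (HahnSeries.single (1 : ℤ) (1 : S.kk) * toL S.kk (invZ Tz))
        = (HahnSeries.single (-1 : ℤ) (1 : S.kk) * HahnSeries.single (1 : ℤ) (1 : S.kk)) *
          (toL S.kk (PowerSeries.X * PowerSeries.derivative ℤ Tz - Tz) *
            toL S.kk (invZ Tz)) := by ring
      _ = _ := by rw [h1, one_mul]

/-- `zf S t` lies in every integrally closed ring containing `B` and `j` (as `ZInt.zf_mem`). -/
theorem zf_mem' (H : Haupt' S Tz t) (R : Subring S.F2)
    (hcl : ∀ y : S.F2, IsIntegral R y → y ∈ R) (hB : ∀ a ∈ S.B, algebraMap K S.F2 a ∈ R)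
    (hj : jj K (S.N0 * S.q * S.q) ∈ R) : zf S t ∈ R := by
  have h1 : S.be1 (S.be0 t) ∈ R := by
    have a1 : IntOver (S.be0 (jj K S.N0)) (S.be0 t) := IntOver.map S.be0.toRingHom H.int
    have a2 : IntOver (jj K (S.N0 * S.q)) (S.be0 t) := IntOver.trans (intOver_be0_jj S) a1
    have a3 : IntOver (S.be1 (jj K (S.N0 * S.q))) (S.be1 (S.be0 t)) :=
      IntOver.map S.be1.toRingHom a2
    exact IntOver.mem hcl hj (IntOver.trans (intOver_be1_jj S) a3)
  obtain ⟨m, hm, hint⟩ := H.int'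
  have h2 : S.al1 (S.al0 ((m : S.F0) * t⁻¹)) ∈ R := by
    have a1 : IntOver (S.al0 (jj K S.N0)) (S.al0 ((m : S.F0) * t⁻¹)) :=
      IntOver.map S.al0.toRingHom hint
    rw [al0_jj] at a1
    have a2 : IntOver (S.al1 (jj K (S.N0 * S.q))) (S.al1 (S.al0 ((m : S.F0) * t⁻¹))) :=
      IntOver.map S.al1.toRingHom a1
    rw [al1_jj] at a2
    exact IntOver.mem hcl hj a2
  have hm0 : m ≠ 0 := by
    rintro rfl
    rw [Nat.coprime_zero_left] at hm
    exact S.hq.one_lt.ne' hm
  have h3 : (S.al1 (S.al0 t))⁻¹ ∈ R := by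
    have e : (S.al1 (S.al0 t))⁻¹ =
        algebraMap K S.F2 ((m : ℕ) : K)⁻¹ * S.al1 (S.al0 ((m : S.F0) * t⁻¹)) := by
      have hmK : ((m : ℕ) : K) ≠ 0 := by
        have : CharZero K := algebraRat.charZero K
        exact Nat.cast_ne_zero.2 hm0
      have hmF : ((m : ℕ) : S.F2) ≠ 0 := by
        rw [← map_natCast (algebraMap K S.F2)]
        exact (map_ne_zero _).2 hmK
      rw [map_mul, map_mul, map_natCast, map_natCast, map_inv₀, map_inv₀, map_inv₀, map_natCast,
        ← mul_assoc, inv_mul_cancel₀ hmF, one_mul]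
    rw [e]
    exact R.mul_mem (hB _ (ZInt_inv_natCast_mem S hm)) h2
  exact R.sub_mem (R.mul_mem h1 h3) R.one_mem

/-- **`t₃ = 1/h₃` at level `N0`, `3 ∣ N0`.** -/
theorem exists_haupt3 (S : Setup K K') (h3 : 3 ∣ S.N0) (hq3 : S.q ≠ 3) :
    ∃ t : S.F0, Haupt' S T3z t := by
  set h : FN S.N0 := Hauptmodul.h3F S.N0 h3 with hh
  have hcoe : ((h : FN S.N0) : LaurentSeries Kbar) = toL Kbar Hauptmodul.h3Z :=
    Hauptmodul.coe_h3F S.N0 h3
  have hmul := single_mul_T3z_mul_h3 Kbar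
  have hh0 : h ≠ 0 := by
    intro h0
    rw [h0] at hcoe
    rw [← hcoe] at hmul
    simp at hmul
  have hx : ((h⁻¹ : FN S.N0) : LaurentSeries Kbar) =
      HahnSeries.single (-1 : ℤ) 1 * toL Kbar T3z := by
    rw [IntermediateField.coe_inv, hcoe]
    exact (eq_inv_of_mul_eq_one_left hmul).symm
  have hrel : jF S.N0 * h⁻¹ ^ 3 = (h⁻¹ + 27) * (h⁻¹ + 243) ^ 3 := by
    have := Hauptmodul.jF_mul_h3F S.N0 h3
    rw [← hh] at this
    field_simp
    linear_combination this
  have hy : coeffMap (algebraMap K Kbar) (HahnSeries.single (-1 : ℤ) 1 * toL K T3z) =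
      ((h⁻¹ : FN S.N0) : LaurentSeries Kbar) := by
    rw [hx, map_mul, coeffMap_single, map_one, Hauptmodul.coeffMap_toL]
  have hmem : HahnSeries.single (-1 : ℤ) 1 * toL K T3z ∈ FK K S.N0 :=
    S36.Desc.mem_laurentBaseChange_of_coeffMap_mem (L' := Kbar) (by rw [hy]; exact (h⁻¹).2)
  have hbc : baseChangeMap (modularFunctionFieldFull S.N0) (algebraMap K Kbar)
      (⟨HahnSeries.single (-1 : ℤ) 1 * toL K T3z, hmem⟩ : S.F0) = h⁻¹ := Subtype.ext hy
  refine ⟨⟨HahnSeries.single (-1 : ℤ) 1 * toL K T3z, hmem⟩,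
    ⟨constantCoeff_T3z, rfl, ?_, 387420489, ?_, ?_⟩⟩
  · apply IntOver.of_map (baseChangeMap (modularFunctionFieldFull S.N0) (algebraMap K Kbar))
      (baseChangeMap_injective _)
    rw [hbc, Haupt.baseChangeMap_jj]
    exact intOver_of_rel hrel
  · have h2 : Nat.Coprime 3 S.q := (Nat.coprime_primes Nat.prime_three S.hq).2 (Ne.symm hq3)
    exact Nat.Coprime.pow_left 18 h2
  · apply IntOver.of_map (baseChangeMap (modularFunctionFieldFull S.N0) (algebraMap K Kbar))
      (baseChangeMap_injective _)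
    rw [map_mul, map_inv₀, map_natCast, hbc, Haupt.baseChangeMap_jj]
    exact intOver_inv_of_rel (inv_ne_zero hh0) hrel

/-! ### The congruence for `q = 2` -/

/-- **The base link for `q = 2`**: if `X Tz' ≡ 0` modulo `2` then `zf S t / 2 ≡ 1` on the middle
component. -/
theorem zf_cong_two (hq2 : S.q = 2) (H : Haupt' S Tz t)
    (hder : ∃ P : PowerSeries ℤ, PowerSeries.X * PowerSeries.derivative ℤ Tz = 2 * P) :
    S.V11.valuation (zf S t / ((S.q : ℕ) : S.F2) - 1) < 1 := by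
  obtain ⟨U, hU1, hU2⟩ := exists_e11_zf' H
  obtain ⟨P, hP⟩ := hder
  have hζ : (S.ζ : K') = -1 := by
    have := S.Unif_zeta_prim
    rw [hq2] at this
    exact this.eq_neg_one_of_two_right
  have : CharZero K' := algebraRat.charZero K'
  have h2 : (2 : LaurentSeries K') ≠ 0 := by
    have : (2 : LaurentSeries K') = algebraMap K' (LaurentSeries K') 2 := (map_ofNat _ 2).symm
    rw [this]
    exact (map_ne_zero _).2 two_ne_zero
  have hf : S.e11.toHom (zf S t / ((S.q : ℕ) : S.F2)) = inc S.B' (-U) := by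
    rw [map_div₀, map_natCast, hU1, map_mul, inc_C, map_neg, hq2]
    change algebraMap K' (LaurentSeries K') ((S.ζ : K') - 1) * _ / _ = _
    rw [hζ]
    have e : algebraMap K' (LaurentSeries K') (-1 - 1) = -2 := by
      rw [map_sub, map_neg, map_one]; ring
    rw [e]
    push_cast
    field_simp
  have hg : S.e11.toHom (1 : S.F2) = inc S.B' 1 := by rw [map_one, map_one]
  refine val_sub_lt_one_of_red_eq S.e11 ?_ hf hg
  have h0 : ((2 : ℕ) : S.kk) = 0 := by
    have := ZCong.natCast_residue_eq_zero S.B' S.q_nonunit'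
    rwa [hq2] at this
  have h0' : (2 : LaurentSeries S.kk) = 0 := by
    have : (2 : LaurentSeries S.kk) = algebraMap S.kk (LaurentSeries S.kk) ((2 : ℕ) : S.kk) := by
      rw [map_natCast]; norm_num
    rw [this, h0, map_zero]
  rw [map_neg, hU2, map_one, map_sub, hP, map_mul, map_ofNat, h0', zero_mul, zero_sub, neg_mul,
    neg_neg, ← map_mul, mul_invZ H.const, map_one]

/-- in the form of `NonCuspData.congz` (`κ = e₃ = 1`). -/
theorem zf_cong_two' (hq2 : S.q = 2) (H : Haupt' S Tz t)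
    (hder : ∃ P : PowerSeries ℤ, PowerSeries.X * PowerSeries.derivative ℤ Tz = 2 * P) :
    S.V11.valuation (zf S t ^ (S.q - 1) / ((S.q : ℕ) : S.F2) * 1 - 1) < 1 := by
  have h1 : S.q - 1 = 1 := by rw [hq2]
  rw [h1, pow_one, mul_one]
  exact zf_cong_two hq2 H hder

theorem isUnif_zf_two (hq2 : S.q = 2) (H : Haupt' S Tz t)
    (hder : ∃ P : PowerSeries ℤ, PowerSeries.X * PowerSeries.derivative ℤ Tz = 2 * P) :
    IsUnif S.V11 (zf S t) :=
  isUnif_of_cong (map_one _) (map_one _) (zf_cong_two' hq2 H hder)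

/-- **Summary for `q = 2`, `3 ∣ N0`.** -/
theorem exists_two (S : Setup K K') (h3 : 3 ∣ S.N0) (hq2 : S.q = 2) :
    ∃ t : S.F0, Haupt' S T3z t ∧ IsUnif S.V11 (zf S t) ∧
      S.V11.valuation (zf S t / ((S.q : ℕ) : S.F2) - 1) < 1 := by
  obtain ⟨t, H⟩ := exists_haupt3 S h3 (by rw [hq2]; norm_num)
  exact ⟨t, H, isUnif_zf_two hq2 H X_mul_derivative_T3z, zf_cong_two hq2 H X_mul_derivative_T3z⟩

end Fermat.Agent.S45.Gen.Two

end
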